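import Fermat.Agent.Lib.Cheb.H583.Core

/-!
# Frobenius density theorem: induction over cyclic subgroups (helper583)
-/

set_option autoImplicit false

open Finset Filter

namespace Fermat.Agent.Lib.Cheb.H583

open Classical

variable {G : Type*} [Group G] [Fintype G]

/-- The elements of the cyclic subgroup generated by `g`, as a finset. -/
noncomputable def zpFinset (g : G) : Finset G :=
  univ.filter (fun x => x ∈ Subgroup.zpowers g)

/-- The generators of the cyclic subgroup generated by `g`, as a finset. -/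
noncomputable def genFinset (g : G) : Finset G :=
  univ.filter (fun x => Subgroup.zpowers x = Subgroup.zpowers g)

/-- The non-generators in the cyclic subgroup generated by `g`, as a finset. -/
noncomputable def properFinset (g : G) : Finset G :=
  univ.filter (fun x => x ∈ Subgroup.zpowers g ∧ Subgroup.zpowers x ≠ Subgroup.zpowers g)

theorem mem_zpFinset {g x : G} : x ∈ zpFinset g ↔ x ∈ Subgroup.zpowers g := by
  simp [zpFinset]

theorem mem_genFinset {g x : G} : x ∈ genFinset g ↔ Subgroup.zpowers x = Subgroup.zpowers g := by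
  simp [genFinset]

theorem mem_properFinset {g x : G} :
    x ∈ properFinset g ↔ x ∈ Subgroup.zpowers g ∧ Subgroup.zpowers x ≠ Subgroup.zpowers g := by
  simp [properFinset]

theorem self_mem_genFinset (g : G) : g ∈ genFinset g := mem_genFinset.2 rfl

theorem genFinset_card_pos (g : G) : 0 < (genFinset g).card :=
  Finset.card_pos.2 ⟨g, self_mem_genFinset g⟩

theorem genFinset_eq_of_mem {g x : G} (hx : x ∈ genFinset g) : genFinset x = genFinset g := by
  ext y
  rw [mem_genFinset, mem_genFinset, mem_genFinset.1 hx]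

omit [Fintype G] in
theorem mem_zpowers_iff_le {g x : G} :
    x ∈ Subgroup.zpowers g ↔ Subgroup.zpowers x ≤ Subgroup.zpowers g := by
  constructor
  · intro h
    exact Subgroup.zpowers_le.2 h
  · intro h
    exact h (Subgroup.mem_zpowers x)

theorem zpFinset_eq_union (g : G) : zpFinset g = genFinset g ∪ properFinset g := by
  ext x
  rw [mem_union, mem_zpFinset, mem_genFinset, mem_properFinset]
  constructor
  · intro h
    by_cases hx : Subgroup.zpowers x = Subgroup.zpowers g
    · exact Or.inl hx
    · exact Or.inr ⟨h, hx⟩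
  · rintro (h | h)
    · rw [mem_zpowers_iff_le, h]
    · exact h.1

theorem disjoint_gen_proper (g : G) : Disjoint (genFinset g) (properFinset g) := by
  rw [Finset.disjoint_left]
  intro x hx hx'
  exact (mem_properFinset.1 hx').2 (mem_genFinset.1 hx)

theorem card_zpFinset (g : G) : (zpFinset g).card = Nat.card (Subgroup.zpowers g) := by
  classical
  rw [Nat.card_eq_fintype_card, Fintype.card_subtype]
  rfl

theorem card_zpowers_lt_of_mem_proper {g x : G} (hx : x ∈ properFinset g) :
    Nat.card (Subgroup.zpowers x) < Nat.card (Subgroup.zpowers g) := by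
  obtain ⟨h1, h2⟩ := mem_properFinset.1 hx
  have hle : Subgroup.zpowers x ≤ Subgroup.zpowers g := mem_zpowers_iff_le.1 h1
  have hlt : Subgroup.zpowers x < Subgroup.zpowers g := lt_of_le_of_ne hle h2
  rw [← card_zpFinset, ← card_zpFinset]
  apply Finset.card_lt_card
  rw [Finset.ssubset_iff_of_subset]
  · obtain ⟨y, hy1, hy2⟩ := SetLike.exists_of_lt hlt
    exact ⟨y, mem_zpFinset.2 hy1, fun h => hy2 (mem_zpFinset.1 h)⟩
  · intro y hy
    exact mem_zpFinset.2 (hle (mem_zpFinset.1 hy))

/-- Double counting: a sum over the non-generators is the sum of the normalised sums over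
generator classes. -/
theorem sum_proper_eq (g : G) (φ : G → ℝ) :
    ∑ x ∈ properFinset g, φ x =
      ∑ x ∈ properFinset g, ((genFinset x).card : ℝ)⁻¹ * ∑ y ∈ genFinset x, φ y := by
  have h1 : ∑ x ∈ properFinset g, ((genFinset x).card : ℝ)⁻¹ * ∑ y ∈ genFinset x, φ y =
      ∑ x ∈ properFinset g, ∑ y ∈ genFinset x, ((genFinset x).card : ℝ)⁻¹ * φ y := by
    refine Finset.sum_congr rfl fun x _ => ?_
    rw [Finset.mul_sum]
  rw [h1]
  rw [Finset.sum_comm' (s' := fun y => genFinset y) (t' := properFinset g)]
  · refine Finset.sum_congr rfl fun y _ => ?_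
    have h2 : ∑ x ∈ genFinset y, ((genFinset x).card : ℝ)⁻¹ * φ y =
        ∑ _x ∈ genFinset y, ((genFinset y).card : ℝ)⁻¹ * φ y := by
      refine Finset.sum_congr rfl fun x hx => ?_
      rw [genFinset_eq_of_mem hx]
    rw [h2, Finset.sum_const, nsmul_eq_mul, ← mul_assoc,
      mul_inv_cancel₀ (by exact_mod_cast (genFinset_card_pos y).ne'), one_mul]
  · intro x y
    rw [mem_genFinset, mem_genFinset, mem_properFinset, mem_properFinset]
    constructor
    · rintro ⟨⟨h1, h2⟩, h3⟩
      refine ⟨h3.symm, ?_, ?_⟩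
      · rw [mem_zpowers_iff_le, h3, ← mem_zpowers_iff_le]; exact h1
      · rw [h3]; exact h2
    · rintro ⟨h3, h1, h2⟩
      refine ⟨⟨?_, ?_⟩, h3.symm⟩
      · rw [mem_zpowers_iff_le, h3, ← mem_zpowers_iff_le]; exact h1
      · rw [h3]; exact h2

/-- **Combinatorial core of the Frobenius density theorem.**  If for every cyclic subgroup
`⟨h⟩` the sum of the `Φ x` over `x ∈ ⟨h⟩` is `|⟨h⟩| * lp` up to a bounded function, then for
every `g` the sum of `Φ x` over the generators `x` of `⟨g⟩` is `#generators * lp` up to a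
bounded function. -/
theorem bddDiff_sum_genFinset (Φ : G → ℝ → ℝ) (lp : ℝ → ℝ) (l : Filter ℝ)
    (hH : ∀ h : G, BddDiff l (fun s => ∑ x ∈ zpFinset h, Φ x s)
      (fun s => (Nat.card (Subgroup.zpowers h) : ℝ) * lp s)) (g : G) :
    BddDiff l (fun s => ∑ x ∈ genFinset g, Φ x s)
      (fun s => ((genFinset g).card : ℝ) * lp s) := by
  induction' hn : Nat.card (Subgroup.zpowers g) using Nat.strong_induction_on with n ih generalizing g
  -- the sum over the proper part
  have hP : BddDiff l (fun s => ∑ x ∈ properFinset g, Φ x s)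
      (fun s => ((properFinset g).card : ℝ) * lp s) := by
    have h1 : BddDiff l
        (fun s => ∑ x ∈ properFinset g,
          ((genFinset x).card : ℝ)⁻¹ * ∑ y ∈ genFinset x, Φ y s)
        (fun s => ∑ x ∈ properFinset g,
          ((genFinset x).card : ℝ)⁻¹ * (((genFinset x).card : ℝ) * lp s)) := by
      apply BddDiff.finset_sum
      intro x hx
      apply BddDiff.const_mul
      exact ih _ (hn ▸ card_zpowers_lt_of_mem_proper hx) x rfl
    refine h1.congr (fun s => (sum_proper_eq g (fun x => Φ x s)).symm) (fun s => ?_)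
    have h2 : ∀ x ∈ properFinset g,
        ((genFinset x).card : ℝ)⁻¹ * (((genFinset x).card : ℝ) * lp s) = lp s := by
      intro x _
      rw [← mul_assoc, inv_mul_cancel₀ (by exact_mod_cast (genFinset_card_pos x).ne'), one_mul]
    rw [Finset.sum_congr rfl h2, Finset.sum_const, nsmul_eq_mul]
  have hZ := hH g
  have hsub := hZ.sub hP
  refine hsub.congr (fun s => ?_) (fun s => ?_)
  · rw [zpFinset_eq_union, Finset.sum_union (disjoint_gen_proper g)]
    ring
  · have hc : (Nat.card (Subgroup.zpowers g) : ℝ) =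
        ((genFinset g).card : ℝ) + ((properFinset g).card : ℝ) := by
      rw [← card_zpFinset, zpFinset_eq_union, Finset.card_union_of_disjoint (disjoint_gen_proper g)]
      push_cast
      ring
    rw [hc]
    ring

/-- Consequence: if `lp` tends to `+∞` along `l` (`l ≠ ⊥`), then the sum of the `Φ x` over the
generators `x` of `⟨g⟩` is not eventually bounded above along `l`. -/
theorem not_eventually_le_sum_genFinset {l : Filter ℝ} [l.NeBot] (Φ : G → ℝ → ℝ) (lp : ℝ → ℝ)
    (hH : ∀ h : G, BddDiff l (fun s => ∑ x ∈ zpFinset h, Φ x s)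
      (fun s => (Nat.card (Subgroup.zpowers h) : ℝ) * lp s))
    (hlp : Tendsto lp l atTop) (g : G) (M : ℝ) :
    ¬ ∀ᶠ s in l, ∑ x ∈ genFinset g, Φ x s ≤ M := by
  intro hM
  obtain ⟨B, hB⟩ := bddDiff_sum_genFinset Φ lp l hH g
  have hcard : (1 : ℝ) ≤ ((genFinset g).card : ℝ) := by
    exact_mod_cast genFinset_card_pos g
  have h1 : ∀ᶠ s in l, max (B + M) 0 < lp s := hlp.eventually_gt_atTop _
  obtain ⟨s, hs1, hs2, hs3⟩ := (hB.and (hM.and h1)).exists
  have h3 := abs_le.1 hs1
  have hlp_pos : 0 < lp s := lt_of_le_of_lt (le_max_right _ _) hs3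
  have h4 : lp s ≤ ((genFinset g).card : ℝ) * lp s := by
    have := mul_le_mul_of_nonneg_right hcard hlp_pos.le
    linarith
  have h5 : B + M < lp s := lt_of_le_of_lt (le_max_left _ _) hs3
  linarith [h3.1]

end Fermat.Agent.Lib.Cheb.H583
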