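import Mathlib.NumberTheory.SumPrimeReciprocals
import Mathlib.Analysis.SpecialFunctions.Log.Basic
import Mathlib.Analysis.SpecialFunctions.Pow.Real
import Fermat.Agent.Lib.Cheb.H583.Induction

/-!
# Frobenius density theorem: abstract form of the induction step (helper583)

`G` a finite group, `w x p ≥ 0` bounded weights (`x : G`, `p` prime).  Assume that for every `h`
there is a bounded `a h : ℕ → ℝ` with

* (B) `∑ x ∈ ⟨h⟩, w x p = |⟨h⟩| * a h p` for all but finitely many primes `p`;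
* (A) `∑' p, a h p * p ^ (-s) = log (1 / (s - 1)) + O(1)` as `s → 1⁺`.

Then for every `g` there are infinitely many primes `p` such that `w x p ≠ 0` for some
generator `x` of `⟨g⟩`.
-/

set_option autoImplicit false

open Finset Filter Topology

namespace Fermat.Agent.Lib.Cheb.H583

/-- The prime Dirichlet sum `∑_p a(p) p^{-s}`. -/
noncomputable def pSum (a : ℕ → ℝ) (s : ℝ) : ℝ :=
  ∑' p : Nat.Primes, a p * ((p : ℕ) : ℝ) ^ (-s)

theorem summable_pSum_of_bdd {a : ℕ → ℝ} {C : ℝ} (ha : ∀ p : ℕ, p.Prime → |a p| ≤ C) {s : ℝ}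
    (hs : 1 < s) : Summable (fun p : Nat.Primes => a p * ((p : ℕ) : ℝ) ^ (-s)) := by
  have h1 : Summable (fun p : Nat.Primes => ((p : ℕ) : ℝ) ^ (-s)) :=
    Nat.Primes.summable_rpow.2 (by linarith)
  refine Summable.of_norm_bounded (h1.mul_left C) fun p => ?_
  rw [Real.norm_eq_abs, abs_mul]
  have h2 : 0 ≤ ((p : ℕ) : ℝ) ^ (-s) := Real.rpow_nonneg (Nat.cast_nonneg _) _
  rw [abs_of_nonneg h2]
  exact mul_le_mul_of_nonneg_right (ha p p.2) h2

theorem rpow_neg_le_one (p : Nat.Primes) {s : ℝ} (hs : 0 ≤ s) : ((p : ℕ) : ℝ) ^ (-s) ≤ 1 := by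
  apply Real.rpow_le_one_of_one_le_of_nonpos
  · exact_mod_cast p.2.one_lt.le
  · linarith

/-- A prime sum whose coefficients vanish outside a finite set is bounded. -/
theorem abs_pSum_le_of_finite_support {a : ℕ → ℝ} {C : ℝ}
    (ha : ∀ p : ℕ, p.Prime → |a p| ≤ C) (T : Finset ℕ)
    (hT : ∀ p : ℕ, p.Prime → p ∉ T → a p = 0) {s : ℝ} (hs : 0 ≤ s) :
    |pSum a s| ≤ T.card * C := by
  classical
  have hC : 0 ≤ C := (abs_nonneg _).trans (ha 2 Nat.prime_two)
  unfold pSum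
  have h1 : ∑' p : Nat.Primes, a p * ((p : ℕ) : ℝ) ^ (-s) =
      ∑ p ∈ T.subtype Nat.Prime, a p * (((p : Nat.Primes) : ℕ) : ℝ) ^ (-s) := by
    apply tsum_eq_sum
    intro p hp
    have : (p : ℕ) ∉ T := fun h => hp (Finset.mem_subtype.2 h)
    rw [hT p p.2 this, zero_mul]
  rw [h1]
  refine (Finset.abs_sum_le_sum_abs _ _).trans ?_
  have h2 : ∀ p ∈ T.subtype Nat.Prime,
      |a p * (((p : Nat.Primes) : ℕ) : ℝ) ^ (-s)| ≤ C := by
    intro p _
    have h3 : 0 ≤ (((p : Nat.Primes) : ℕ) : ℝ) ^ (-s) := Real.rpow_nonneg (Nat.cast_nonneg _) _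
    rw [abs_mul, abs_of_nonneg h3]
    calc |a p| * (((p : Nat.Primes) : ℕ) : ℝ) ^ (-s) ≤ C * 1 :=
          mul_le_mul (ha p p.2) (rpow_neg_le_one p hs) h3 hC
      _ = C := mul_one C
  refine (Finset.sum_le_sum h2).trans ?_
  rw [Finset.sum_const, nsmul_eq_mul]
  refine mul_le_mul_of_nonneg_right ?_ hC
  have : (T.subtype Nat.Prime).card ≤ T.card := by
    rw [Finset.card_subtype]
    exact Finset.card_filter_le _ _
  exact_mod_cast this

theorem tendsto_log_one_div_sub_one :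
    Tendsto (fun s : ℝ => Real.log (1 / (s - 1))) (𝓝[>] (1 : ℝ)) atTop := by
  have h1 : Tendsto (fun s : ℝ => s - 1) (𝓝[>] (1 : ℝ)) (𝓝[>] (0 : ℝ)) := by
    rw [tendsto_nhdsWithin_iff]
    constructor
    · have : Tendsto (fun s : ℝ => s - 1) (𝓝 (1 : ℝ)) (𝓝 (0 : ℝ)) := by
        have hc : Continuous fun s : ℝ => s - 1 := by fun_prop
        have := hc.tendsto 1
        simpa using this
      exact this.mono_left nhdsWithin_le_nhds
    · filter_upwards [self_mem_nhdsWithin] with s hs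
      simpa using hs
  have h2 : Tendsto (fun s : ℝ => (s - 1)⁻¹) (𝓝[>] (1 : ℝ)) atTop :=
    tendsto_inv_nhdsGT_zero.comp h1
  have h3 := Real.tendsto_log_atTop.comp h2
  refine h3.congr fun s => ?_
  simp [one_div]

end Fermat.Agent.Lib.Cheb.H583

namespace Fermat.Agent.Lib.Cheb.H583

open Classical

variable {G : Type*} [Group G] [Fintype G]

theorem eventually_one_lt : ∀ᶠ s : ℝ in 𝓝[>] (1 : ℝ), 1 < s := by
  filter_upwards [self_mem_nhdsWithin] with s hs
  exact hs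

/-- Step 1: (A) + (B) for the cyclic subgroup generated by `h`. -/
theorem bddDiff_sum_zpFinset_pSum
    (w : G → ℕ → ℝ) (C : ℝ) (hw0 : ∀ x p, 0 ≤ w x p) (hwC : ∀ x p, w x p ≤ C)
    (a : G → ℕ → ℝ) (C' : ℝ) (haC : ∀ h (p : ℕ), p.Prime → |a h p| ≤ C')
    (hB : ∀ h : G, {p : ℕ | p.Prime ∧
      ∑ x ∈ zpFinset h, w x p ≠ (Nat.card (Subgroup.zpowers h) : ℝ) * a h p}.Finite)
    (hA : ∀ h : G, BddDiff (𝓝[>] 1) (pSum (a h)) (fun s => Real.log (1 / (s - 1))))
    (h : G) :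
    BddDiff (𝓝[>] 1) (fun s => ∑ x ∈ zpFinset h, pSum (w x) s)
      (fun s => (Nat.card (Subgroup.zpowers h) : ℝ) * Real.log (1 / (s - 1))) := by
  set n : ℝ := (Nat.card (Subgroup.zpowers h) : ℝ) with hn
  set d : ℕ → ℝ := fun p => ∑ x ∈ zpFinset h, w x p - n * a h p with hd
  have hwabs : ∀ x p, |w x p| ≤ C := fun x p => by
    rw [abs_of_nonneg (hw0 x p)]; exact hwC x p
  have hC0 : 0 ≤ C := (hw0 1 0).trans (hwC 1 0)
  have hn0 : 0 ≤ n := Nat.cast_nonneg _
  -- bound for `d`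
  have hdC : ∀ p : ℕ, p.Prime → |d p| ≤ (zpFinset h).card * C + n * C' := by
    intro p hp
    refine (abs_sub _ _).trans (add_le_add ?_ ?_)
    · refine (Finset.abs_sum_le_sum_abs _ _).trans ?_
      refine (Finset.sum_le_sum fun x _ => hwabs x p).trans ?_
      rw [Finset.sum_const, nsmul_eq_mul]
    · rw [abs_mul, abs_of_nonneg hn0]
      exact mul_le_mul_of_nonneg_left (haC h p hp) hn0
  have hdT : ∀ p : ℕ, p.Prime → p ∉ (hB h).toFinset → d p = 0 := by
    intro p hp hpT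
    rw [Set.Finite.mem_toFinset] at hpT
    have : ¬ (∑ x ∈ zpFinset h, w x p ≠ n * a h p) := fun hne => hpT ⟨hp, hne⟩
    rw [not_not] at this
    rw [hd]
    simp only
    rw [this, sub_self]
  -- the error term is bounded
  have hdb : BddDiff (𝓝[>] 1) (pSum d) (fun _ => 0) := by
    refine ⟨(hB h).toFinset.card * ((zpFinset h).card * C + n * C'), ?_⟩
    filter_upwards [eventually_one_lt] with s hs
    rw [sub_zero]
    exact abs_pSum_le_of_finite_support hdC _ hdT (by linarith)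
  have hmain := ((hA h).const_mul n).add hdb
  refine hmain.congr' ?_ (Eventually.of_forall fun s => by ring)
  filter_upwards [eventually_one_lt] with s hs
  -- `n * pSum (a h) s + pSum d s = ∑ x, pSum (w x) s`
  have hsa := summable_pSum_of_bdd (haC h) hs
  have hsd := summable_pSum_of_bdd hdC hs
  have hsw : ∀ x ∈ zpFinset h, Summable (fun p : Nat.Primes => w x p * ((p : ℕ) : ℝ) ^ (-s)) :=
    fun x _ => summable_pSum_of_bdd (fun p _ => hwabs x p) hs
  unfold pSum
  rw [← tsum_mul_left, ← (hsa.mul_left n).tsum_add hsd, ← Summable.tsum_finsetSum hsw]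
  congr 1
  funext p
  rw [← Finset.sum_mul]
  rw [hd]
  ring

/-- **Abstract qualitative Frobenius density theorem.** -/
theorem infinite_primes_of_density
    (w : G → ℕ → ℝ) (C : ℝ) (hw0 : ∀ x p, 0 ≤ w x p) (hwC : ∀ x p, w x p ≤ C)
    (a : G → ℕ → ℝ) (C' : ℝ) (haC : ∀ h (p : ℕ), p.Prime → |a h p| ≤ C')
    (hB : ∀ h : G, {p : ℕ | p.Prime ∧
      ∑ x ∈ zpFinset h, w x p ≠ (Nat.card (Subgroup.zpowers h) : ℝ) * a h p}.Finite)
    (hA : ∀ h : G, BddDiff (𝓝[>] 1) (pSum (a h)) (fun s => Real.log (1 / (s - 1))))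
    (g : G) :
    {p : ℕ | p.Prime ∧ ∃ x : G, Subgroup.zpowers x = Subgroup.zpowers g ∧ w x p ≠ 0}.Infinite := by
  intro hfin
  have hC0 : 0 ≤ C := (hw0 1 0).trans (hwC 1 0)
  have hwabs : ∀ x p, |w x p| ≤ C := fun x p => by
    rw [abs_of_nonneg (hw0 x p)]; exact hwC x p
  have hstep := bddDiff_sum_zpFinset_pSum w C hw0 hwC a C' haC hB hA
  refine not_eventually_le_sum_genFinset (l := 𝓝[>] (1 : ℝ)) (fun x s => pSum (w x) s)
    (fun s => Real.log (1 / (s - 1))) hstep tendsto_log_one_div_sub_one g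
    ((genFinset g).card * (hfin.toFinset.card * C)) ?_
  filter_upwards [eventually_one_lt] with s hs
  have h1 : ∀ x ∈ genFinset g, pSum (w x) s ≤ hfin.toFinset.card * C := by
    intro x hx
    refine (le_abs_self _).trans ?_
    refine abs_pSum_le_of_finite_support (fun p _ => hwabs x p) _ ?_ (by linarith)
    intro p hp hpT
    rw [Set.Finite.mem_toFinset] at hpT
    by_contra hne
    exact hpT ⟨hp, x, mem_genFinset.1 hx, hne⟩
  refine (Finset.sum_le_sum h1).trans ?_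
  rw [Finset.sum_const, nsmul_eq_mul]

end Fermat.Agent.Lib.Cheb.H583
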