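import Fermat.Agent.Lib.Cheb.H583.Induction

/-!
# Frobenius density theorem: the weights attached to a finite family of cyclic subgroups
(helper583)

`G` a finite group, `T` a finite family with a subgroup `D P ≤ G` for every `P ∈ T`.
`cycWeight T D x = (∑_{P ∈ T, D P = ⟨x⟩} |D P|) / #{generators of ⟨x⟩}`.
If all `D P` are cyclic then `∑_{x ∈ ⟨h⟩} cycWeight T D x = ∑_{P ∈ T, D P ≤ ⟨h⟩} |D P|`.
-/

set_option autoImplicit false

open Finset

namespace Fermat.Agent.Lib.Cheb.H583

open Classical

variable {G : Type*} [Group G] [Fintype G] {ι : Type*}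

/-- The weight of `x`: the total size of the groups `D P` generated by `x`, divided by the
number of generators of `⟨x⟩`. -/
noncomputable def cycWeight (T : Finset ι) (D : ι → Subgroup G) (x : G) : ℝ :=
  (∑ P ∈ T.filter (fun P => D P = Subgroup.zpowers x), (Nat.card (D P) : ℝ)) /
    ((genFinset x).card : ℝ)

theorem cycWeight_nonneg (T : Finset ι) (D : ι → Subgroup G) (x : G) :
    0 ≤ cycWeight T D x := by
  unfold cycWeight
  apply div_nonneg
  · exact Finset.sum_nonneg fun P _ => Nat.cast_nonneg _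
  · exact Nat.cast_nonneg _

theorem cycWeight_le (T : Finset ι) (D : ι → Subgroup G) (x : G) :
    cycWeight T D x ≤ ∑ P ∈ T, (Nat.card (D P) : ℝ) := by
  unfold cycWeight
  have h1 : (1 : ℝ) ≤ ((genFinset x).card : ℝ) := by
    exact_mod_cast genFinset_card_pos x
  have h2 : ∑ P ∈ T.filter (fun P => D P = Subgroup.zpowers x), (Nat.card (D P) : ℝ) ≤
      ∑ P ∈ T, (Nat.card (D P) : ℝ) :=
    Finset.sum_le_sum_of_subset_of_nonneg (Finset.filter_subset _ _)
      fun P _ _ => Nat.cast_nonneg _
  have h3 : 0 ≤ ∑ P ∈ T.filter (fun P => D P = Subgroup.zpowers x), (Nat.card (D P) : ℝ) :=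
    Finset.sum_nonneg fun P _ => Nat.cast_nonneg _
  calc (∑ P ∈ T.filter (fun P => D P = Subgroup.zpowers x), (Nat.card (D P) : ℝ)) /
        ((genFinset x).card : ℝ)
      ≤ (∑ P ∈ T.filter (fun P => D P = Subgroup.zpowers x), (Nat.card (D P) : ℝ)) / 1 :=
        div_le_div_of_nonneg_left h3 one_pos h1
    _ = ∑ P ∈ T.filter (fun P => D P = Subgroup.zpowers x), (Nat.card (D P) : ℝ) := div_one _
    _ ≤ _ := h2

theorem exists_of_cycWeight_ne_zero {T : Finset ι} {D : ι → Subgroup G} {x : G}
    (h : cycWeight T D x ≠ 0) : ∃ P ∈ T, D P = Subgroup.zpowers x := by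
  by_contra hcon
  apply h
  have : T.filter (fun P => D P = Subgroup.zpowers x) = ∅ := by
    rw [Finset.filter_eq_empty_iff]
    intro P hP hPx
    exact hcon ⟨P, hP, hPx⟩
  unfold cycWeight
  rw [this, Finset.sum_empty, zero_div]

/-- The contribution of one cyclic group `⟨τ⟩` to the sum over `⟨h⟩`. -/
theorem sum_zpFinset_ite (τ h : G) (c : ℝ) :
    ∑ x ∈ zpFinset h, (if Subgroup.zpowers τ = Subgroup.zpowers x then
        c / ((genFinset x).card : ℝ) else 0) =
      if Subgroup.zpowers τ ≤ Subgroup.zpowers h then c else 0 := by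
  by_cases hle : Subgroup.zpowers τ ≤ Subgroup.zpowers h
  · rw [if_pos hle, ← Finset.sum_filter]
    have hfil : (zpFinset h).filter (fun x => Subgroup.zpowers τ = Subgroup.zpowers x) =
        genFinset τ := by
      ext x
      rw [Finset.mem_filter, mem_zpFinset, mem_genFinset]
      constructor
      · rintro ⟨_, h2⟩
        exact h2.symm
      · intro h2
        refine ⟨?_, h2.symm⟩
        apply hle
        rw [← h2]
        exact Subgroup.mem_zpowers x
    rw [hfil]
    have hcongr : ∀ x ∈ genFinset τ, c / ((genFinset x).card : ℝ) =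
        c / ((genFinset τ).card : ℝ) := by
      intro x hx
      rw [genFinset_eq_of_mem hx]
    rw [Finset.sum_congr rfl hcongr, Finset.sum_const, nsmul_eq_mul]
    have hne : ((genFinset τ).card : ℝ) ≠ 0 := by
      exact_mod_cast (genFinset_card_pos τ).ne'
    field_simp
  · rw [if_neg hle]
    apply Finset.sum_eq_zero
    intro x hx
    rw [if_neg]
    intro hτx
    apply hle
    rw [hτx]
    exact mem_zpowers_iff_le.1 (mem_zpFinset.1 hx)

/-- Summing the weights over a cyclic subgroup `⟨h⟩` counts the `P` with `D P ≤ ⟨h⟩`. -/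
theorem sum_zpFinset_cycWeight (T : Finset ι) (D : ι → Subgroup G)
    (hD : ∀ P ∈ T, ∃ τ : G, D P = Subgroup.zpowers τ) (h : G) :
    ∑ x ∈ zpFinset h, cycWeight T D x =
      ∑ P ∈ T.filter (fun P => D P ≤ Subgroup.zpowers h), (Nat.card (D P) : ℝ) := by
  unfold cycWeight
  have h1 : ∀ x ∈ zpFinset h,
      (∑ P ∈ T.filter (fun P => D P = Subgroup.zpowers x), (Nat.card (D P) : ℝ)) /
        ((genFinset x).card : ℝ) =
      ∑ P ∈ T, (if D P = Subgroup.zpowers x then
        (Nat.card (D P) : ℝ) / ((genFinset x).card : ℝ) else 0) := by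
    intro x _
    rw [Finset.sum_div, Finset.sum_filter]
  rw [Finset.sum_congr rfl h1, Finset.sum_comm, Finset.sum_filter]
  refine Finset.sum_congr rfl fun P hP => ?_
  obtain ⟨τ, hτ⟩ := hD P hP
  rw [hτ]
  exact sum_zpFinset_ite τ h _

end Fermat.Agent.Lib.Cheb.H583
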