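import Fermat.Agent.Lib.Cheb.Spec
import Fermat.Agent.Lib.Cheb.H583.Abstract
import Fermat.Agent.Lib.Cheb.H583.Comb

/-!
# CHEB piece M: `Spec.FrobFiniteStatement` from (Z), (B0), (A), (D)  (helper583)

Finite-level Frobenius density theorem (qualitative): in a Galois number field `L/ℚ`, for every
`σ ∈ Gal(L/ℚ)` and every finite set `S` of primes there are a prime `p ∉ S`, a prime `P ∣ p` of
`𝓞 L` with trivial inertia, and an arithmetic Frobenius `τ` at `P` with `⟨τ⟩ = ⟨σ⟩`.

Proof: with `w x p = (∑_{P ∣ p, D_P = ⟨x⟩} |D_P|) / #{generators of ⟨x⟩}` for good `p`, (D) and (A)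
give `∑_{x ∈ ⟨h⟩} w x p = |⟨h⟩| · c_{L^⟨h⟩}(p)`, and (Z) gives
`∑_p c_{L^⟨h⟩}(p) p^{-s} = log (1/(s-1)) + O(1)`.  The induction over cyclic subgroups
(`infinite_primes_of_density`) yields infinitely many `p` with `w x p ≠ 0` for a generator `x` of
`⟨σ⟩`.
-/

set_option autoImplicit false

open NumberField Finset Filter Topology
open scoped Pointwise

namespace Fermat.Agent.Lib.Cheb.H583

open Classical

section Primes

variable (L : Type) [Field L] [NumberField L]

/-- The primes of `𝓞 L` containing the rational integer `p`. -/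
def primesAbove (p : ℕ) : Set (Ideal (𝓞 L)) := {P | P.IsPrime ∧ (p : 𝓞 L) ∈ P}

theorem primesAbove_finite {p : ℕ} (hp : p ≠ 0) : (primesAbove L p).Finite := by
  have hp' : ((p : ℕ) : 𝓞 L) ≠ 0 := by exact_mod_cast hp
  have hI : Ideal.span {((p : ℕ) : 𝓞 L)} ≠ 0 := by
    rw [Ne, Ideal.zero_eq_bot, Ideal.span_singleton_eq_bot]
    exact hp'
  have hfin := (Ideal.finite_factors hI).image
    (fun v : IsDedekindDomain.HeightOneSpectrum (𝓞 L) => v.asIdeal)
  refine hfin.subset ?_
  rintro P ⟨hP, hpP⟩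
  have hne : P ≠ ⊥ := by
    rintro rfl
    exact hp' (by simpa using hpP)
  refine ⟨⟨P, hP, hne⟩, ?_, rfl⟩
  show P ∣ Ideal.span {((p : ℕ) : 𝓞 L)}
  rw [Ideal.dvd_iff_le, Ideal.span_le]
  intro x hx
  rw [Set.mem_singleton_iff] at hx
  rw [hx]
  exact hpP

/-- The primes of `𝓞 L` above `p`, as a finset (empty for `p = 0`). -/
noncomputable def primesFinset (p : ℕ) : Finset (Ideal (𝓞 L)) :=
  if hp : p ≠ 0 then (primesAbove_finite L hp).toFinset else ∅

variable {L}

theorem mem_primesFinset {p : ℕ} (hp : p ≠ 0) {P : Ideal (𝓞 L)} :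
    P ∈ primesFinset L p ↔ P.IsPrime ∧ (p : 𝓞 L) ∈ P := by
  unfold primesFinset
  rw [dif_pos hp, Set.Finite.mem_toFinset]
  rfl

/-- `decompWeight` as a finset sum. -/
theorem decompWeight_eq_sum (H : Subgroup (L ≃ₐ[ℚ] L)) {p : ℕ} (hp : p ≠ 0) :
    (Spec.decompWeight L H p : ℝ) =
      ∑ P ∈ (primesFinset L p).filter (fun P => Spec.decomp L P ≤ H),
        (Nat.card (Spec.decomp L P) : ℝ) := by
  unfold Spec.decompWeight
  have hset : Spec.primesLe L H p =
      ((primesFinset L p).filter (fun P => Spec.decomp L P ≤ H) : Set (Ideal (𝓞 L))) := by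
    ext P
    rw [Finset.mem_coe, Finset.mem_filter, mem_primesFinset hp]
    constructor
    · rintro ⟨h1, h2, h3⟩
      exact ⟨⟨h1, h2⟩, h3⟩
    · rintro ⟨⟨h1, h2⟩, h3⟩
      exact ⟨h1, h2, h3⟩
  rw [finsum_set_coe_eq_finsum_mem (f := fun P : Ideal (𝓞 L) => Nat.card (Spec.decomp L P))
    (Spec.primesLe L H p), hset, finsum_mem_coe_finset, Nat.cast_sum]

end Primes

/-- (M): the finite-level qualitative Frobenius density theorem, from (Z), (B0), (A), (D). -/
theorem frobFinite (hZ : Spec.PrimeSumStatement) (hB0 : Spec.PrimeCountBoundStatement)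
    (hA : Spec.CountStatement) (hD : Spec.FrobStatement) : Spec.FrobFiniteStatement := by
  intro L _ _ _ σ S
  obtain ⟨Bfrob, hBfrob⟩ := hD L
  choose BH hBH using hA L
  -- the bad primes
  set Bad : Finset ℕ := S ∪ Bfrob ∪ BH ⊤ with hBad
  -- cyclicity of the decomposition groups at good primes
  have hcyc : ∀ p : ℕ, p.Prime → p ∉ Bad → ∀ P ∈ primesFinset L p,
      ∃ τ : L ≃ₐ[ℚ] L, Spec.decomp L P = Subgroup.zpowers τ := by
    intro p hp hpB P hP
    rw [mem_primesFinset hp.ne_zero] at hP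
    have hpf : p ∉ Bfrob := fun h => hpB (by simp [hBad, h])
    obtain ⟨_, τ, _, hτ⟩ := hBfrob p hp hpf P hP.1 hP.2
    exact ⟨τ, hτ⟩
  -- the weights
  have key := infinite_primes_of_density (G := L ≃ₐ[ℚ] L)
    (fun x p => if p.Prime ∧ p ∉ Bad then cycWeight (primesFinset L p) (Spec.decomp L) x else 0)
    ((Module.finrank ℚ (IntermediateField.fixedField (⊤ : Subgroup (L ≃ₐ[ℚ] L))) : ℝ) *
      (Nat.card (⊤ : Subgroup (L ≃ₐ[ℚ] L)) : ℝ))
    ?_ ?_
    (fun h p => (Spec.primeCount (IntermediateField.fixedField (Subgroup.zpowers h)) p : ℝ))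
    (∑ h : L ≃ₐ[ℚ] L,
      (Module.finrank ℚ (IntermediateField.fixedField (Subgroup.zpowers h)) : ℝ))
    ?_ ?_ ?_ σ
  · -- conclusion
    obtain ⟨p, hp, x, hx, hw⟩ := key.nonempty
    have hgood : p.Prime ∧ p ∉ Bad := by
      by_contra hcon
      exact hw (if_neg hcon)
    rw [if_pos hgood] at hw
    obtain ⟨P, hP, hPx⟩ := exists_of_cycWeight_ne_zero hw
    rw [mem_primesFinset hp.ne_zero] at hP
    have hpf : p ∉ Bfrob := fun h => hgood.2 (by simp [hBad, h])
    have hpS : p ∉ S := fun h => hgood.2 (by simp [hBad, h])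
    obtain ⟨hin, τ, hτ1, hτ2⟩ := hBfrob p hp hpf P hP.1 hP.2
    refine ⟨p, P, τ, hp, hpS, hP.1, hP.2, hin, hτ1, ?_⟩
    rw [← hτ2, hPx, hx]
  · -- nonnegativity
    intro x p
    show 0 ≤ (if p.Prime ∧ p ∉ Bad then cycWeight (primesFinset L p) (Spec.decomp L) x else 0)
    split_ifs
    · exact cycWeight_nonneg _ _ _
    · exact le_rfl
  · -- upper bound
    intro x p
    show (if p.Prime ∧ p ∉ Bad then cycWeight (primesFinset L p) (Spec.decomp L) x else 0) ≤ _
    split_ifs with hgood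
    · have hpT : p ∉ BH ⊤ := fun h => hgood.2 (by simp [hBad, h])
      have h1 := hBH ⊤ p hgood.1 hpT
      have h2 := decompWeight_eq_sum (L := L) ⊤ hgood.1.ne_zero
      have h3 : (primesFinset L p).filter (fun P => Spec.decomp L P ≤ ⊤) = primesFinset L p :=
        Finset.filter_true_of_mem fun P _ => le_top
      rw [h3, ← h1] at h2
      have h4 := hB0 (IntermediateField.fixedField (⊤ : Subgroup (L ≃ₐ[ℚ] L))) p
      calc cycWeight (primesFinset L p) (Spec.decomp L) x
          ≤ ∑ P ∈ primesFinset L p, (Nat.card (Spec.decomp L P) : ℝ) := cycWeight_le _ _ _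
        _ = _ := h2.symm
        _ ≤ _ := by
          push_cast
          exact mul_le_mul_of_nonneg_right (by exact_mod_cast h4) (Nat.cast_nonneg _)
    · exact mul_nonneg (Nat.cast_nonneg _) (Nat.cast_nonneg _)
  · -- bound for the prime counts
    intro h p _
    show |(Spec.primeCount (IntermediateField.fixedField (Subgroup.zpowers h)) p : ℝ)| ≤ _
    rw [abs_of_nonneg (Nat.cast_nonneg _)]
    have h4 := hB0 (IntermediateField.fixedField (Subgroup.zpowers h)) p
    calc (Spec.primeCount (IntermediateField.fixedField (Subgroup.zpowers h)) p : ℝ)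
        ≤ (Module.finrank ℚ (IntermediateField.fixedField (Subgroup.zpowers h)) : ℝ) := by
          exact_mod_cast h4
      _ ≤ _ := Finset.single_le_sum
          (f := fun h : L ≃ₐ[ℚ] L =>
            (Module.finrank ℚ (IntermediateField.fixedField (Subgroup.zpowers h)) : ℝ))
          (fun _ _ => Nat.cast_nonneg _) (Finset.mem_univ h)
  · -- (B)
    intro h
    refine ((Bad ∪ BH (Subgroup.zpowers h)).finite_toSet).subset ?_
    rintro p ⟨hp, hne⟩
    by_contra hcon
    apply hne
    rw [Finset.mem_coe, Finset.mem_union, not_or] at hcon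
    have hgood : p.Prime ∧ p ∉ Bad := ⟨hp, hcon.1⟩
    have h1 : ∀ x ∈ zpFinset h,
        (if p.Prime ∧ p ∉ Bad then cycWeight (primesFinset L p) (Spec.decomp L) x else 0) =
          cycWeight (primesFinset L p) (Spec.decomp L) x := fun x _ => if_pos hgood
    rw [Finset.sum_congr rfl h1, sum_zpFinset_cycWeight _ _ (hcyc p hp hcon.1),
      ← decompWeight_eq_sum _ hp.ne_zero, ← hBH (Subgroup.zpowers h) p hp hcon.2]
    push_cast
    ring
  · -- (A)
    intro h
    obtain ⟨C, hC⟩ := hZ (IntermediateField.fixedField (Subgroup.zpowers h))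
    refine ⟨C, ?_⟩
    filter_upwards [Ioc_mem_nhdsGT (show (1 : ℝ) < 2 by norm_num)] with s hs
    exact hC s hs.1 hs.2

end Fermat.Agent.Lib.Cheb.H583
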