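import Fermat.Agent.Lib.Cheb.Spec
import Fermat.Agent.Lib.Cheb.H583.FrobFinite

/-!
# CHEB Tier 2, piece ALG of CYC: basic lemmas (helper583)

* `frob_apply_root`: an arithmetic Frobenius at `P ∣ p` maps an `m`-th root of unity `ζ` to `ζ ^ p`
  if `p ∤ m`.
* `frob_unique`: if the inertia group at `P` is trivial, two arithmetic Frobenius elements at `P`
  coincide.
* `exists_primesLe_iff`: `decompWeight L H p ≠ 0` iff there is a prime `P ∣ p` with `D_P ≤ H`.
* `autToPow_eq_natCast_iff`: `autToPow f ≡ k mod m` iff `f ζ = ζ ^ k`.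
-/

set_option autoImplicit false
set_option linter.unusedSectionVars false

open NumberField

namespace Fermat.Agent.Lib.Cheb.H583

section General

variable {L : Type} [Field L] [NumberField L]

/-- The residue field of the prime of `ℤ` below a prime `P ∋ p` has `p` elements. -/
theorem card_quot_under_eq {p : ℕ} (hp : p.Prime) {P : Ideal (𝓞 L)} (hP : P.IsPrime)
    (hpP : (p : 𝓞 L) ∈ P) : Nat.card (ℤ ⧸ P.under ℤ) = p := by
  have hle : Ideal.span {(p : ℤ)} ≤ P.under ℤ := by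
    rw [Ideal.span_le, Set.singleton_subset_iff]
    show algebraMap ℤ (𝓞 L) (p : ℤ) ∈ P
    simpa using hpP
  have hne : P.under ℤ ≠ ⊤ := (Ideal.IsPrime.under ℤ P).ne_top
  have : Fact p.Prime := ⟨hp⟩
  have heq : Ideal.span {(p : ℤ)} = P.under ℤ :=
    (Int.ideal_span_isMaximal_of_prime p).eq_of_le hne hle
  rw [← heq, Int.card_ideal_quot]

/-- The defining congruence of an arithmetic Frobenius at `P ∣ p`. -/
theorem frob_smul_sub_pow_mem {p : ℕ} (hp : p.Prime) {P : Ideal (𝓞 L)} (hP : P.IsPrime)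
    (hpP : (p : 𝓞 L) ∈ P) {τ : L ≃ₐ[ℚ] L} (hτ : IsArithFrobAt ℤ τ P) (x : 𝓞 L) :
    τ • x - x ^ p ∈ P := by
  have h := hτ x
  rw [card_quot_under_eq hp hP hpP] at h
  exact h

/-- If `p ∤ m` and `p ∈ P`, then `m ∉ P`. -/
theorem natCast_not_mem_of_not_dvd {p m : ℕ} (hp : p.Prime) (hpm : ¬ p ∣ m) {P : Ideal (𝓞 L)}
    (hP : P.IsPrime) (hpP : (p : 𝓞 L) ∈ P) : (m : 𝓞 L) ∉ P := by
  intro hmP
  have hcop : Nat.Coprime p m := (Nat.Prime.coprime_iff_not_dvd hp).2 hpm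
  have h1 : ((Nat.gcd p m : ℤ) : 𝓞 L) ∈ P := by
    rw [Nat.gcd_eq_gcd_ab]
    push_cast
    exact P.add_mem (P.mul_mem_right _ hpP) (P.mul_mem_right _ hmP)
  rw [hcop] at h1
  simp only [Nat.cast_one, Int.cast_one] at h1
  exact hP.ne_top ((Ideal.eq_top_iff_one P).2 h1)

/-- An arithmetic Frobenius at `P ∣ p` raises the `m`-th roots of unity to the `p`-th power, if
`p ∤ m`. -/
theorem frob_apply_root {p m : ℕ} (hp : p.Prime) (hpm : ¬ p ∣ m) {P : Ideal (𝓞 L)}
    (hP : P.IsPrime) (hpP : (p : 𝓞 L) ∈ P) {τ : L ≃ₐ[ℚ] L} (hτ : IsArithFrobAt ℤ τ P)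
    {ζ : L} (hm : 0 < m) (hζ : ζ ^ m = 1) : τ ζ = ζ ^ p := by
  have hint : IsIntegral ℤ ζ := by
    apply IsIntegral.of_pow hm
    rw [hζ]
    exact isIntegral_one
  set z : 𝓞 L := ⟨ζ, hint⟩ with hz
  have hz1 : z ^ m = 1 := by
    apply RingOfIntegers.ext
    show (z : L) ^ m = 1
    exact hζ
  have hmP : (m : 𝓞 L) ∉ P := natCast_not_mem_of_not_dvd hp hpm hP hpP
  have h := AlgHom.IsArithFrobAt.apply_of_pow_eq_one hτ hz1 hmP
  rw [card_quot_under_eq hp hP hpP] at h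
  have h2 := congrArg (fun y : 𝓞 L => (y : L)) h
  exact h2

/-- With trivial inertia, the arithmetic Frobenius is unique. -/
theorem frob_unique {P : Ideal (𝓞 L)} (hin : Spec.InertiaTrivial L P) {τ τ' : L ≃ₐ[ℚ] L}
    (hτ : IsArithFrobAt ℤ τ P) (hτ' : IsArithFrobAt ℤ τ' P) : τ = τ' := by
  have h : τ * τ'⁻¹ = 1 := by
    apply hin
    intro x
    have h1 := hτ (τ'⁻¹ • x)
    have h2 := hτ' (τ'⁻¹ • x)
    have h3 : (τ * τ'⁻¹) • x - x =
        ((MulSemiringAction.toAlgHom ℤ (𝓞 L) τ) (τ'⁻¹ • x) -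
            (τ'⁻¹ • x) ^ Nat.card (ℤ ⧸ P.under ℤ)) -
          ((MulSemiringAction.toAlgHom ℤ (𝓞 L) τ') (τ'⁻¹ • x) -
            (τ'⁻¹ • x) ^ Nat.card (ℤ ⧸ P.under ℤ)) := by
      simp [mul_smul]
    rw [h3]
    exact P.sub_mem h1 h2
  exact mul_inv_eq_one.1 h

end General

section Weight

variable {L : Type} [Field L] [NumberField L] [IsGalois ℚ L]

open Classical in
/-- `decompWeight L H p ≠ 0` iff some prime above `p` has decomposition group inside `H`. -/
theorem decompWeight_ne_zero_iff (H : Subgroup (L ≃ₐ[ℚ] L)) {p : ℕ} (hp : p ≠ 0) :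
    Spec.decompWeight L H p ≠ 0 ↔
      ∃ P : Ideal (𝓞 L), P.IsPrime ∧ (p : 𝓞 L) ∈ P ∧ Spec.decomp L P ≤ H := by
  have hsum := decompWeight_eq_sum (L := L) H hp
  have hpos : ∀ P : Ideal (𝓞 L), (0 : ℝ) < (Nat.card (Spec.decomp L P) : ℝ) := by
    intro P
    exact_mod_cast Nat.card_pos
  constructor
  · intro hne
    by_contra hcon
    apply hne
    have hempty : (primesFinset L p).filter (fun P => Spec.decomp L P ≤ H) = ∅ := by
      rw [Finset.filter_eq_empty_iff]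
      intro P hP hle
      rw [mem_primesFinset hp] at hP
      exact hcon ⟨P, hP.1, hP.2, hle⟩
    rw [hempty, Finset.sum_empty] at hsum
    exact_mod_cast hsum
  · rintro ⟨P, hP, hpP, hle⟩ h0
    rw [h0, Nat.cast_zero] at hsum
    have hmem : P ∈ (primesFinset L p).filter (fun P => Spec.decomp L P ≤ H) := by
      rw [Finset.mem_filter, mem_primesFinset hp]
      exact ⟨⟨hP, hpP⟩, hle⟩
    have := Finset.sum_pos (fun P _ => hpos P) ⟨P, hmem⟩
    rw [← hsum] at this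
    exact lt_irrefl _ this

/-- If two subgroups contain the same decomposition groups of primes above `p`, the weights
agree. -/
theorem decompWeight_congr (H H' : Subgroup (L ≃ₐ[ℚ] L)) (p : ℕ)
    (h : ∀ P : Ideal (𝓞 L), P.IsPrime → (p : 𝓞 L) ∈ P →
      (Spec.decomp L P ≤ H ↔ Spec.decomp L P ≤ H')) :
    Spec.decompWeight L H p = Spec.decompWeight L H' p := by
  have hset : Spec.primesLe L H p = Spec.primesLe L H' p := by
    ext P
    constructor
    · rintro ⟨h1, h2, h3⟩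
      exact ⟨h1, h2, (h P h1 h2).1 h3⟩
    · rintro ⟨h1, h2, h3⟩
      exact ⟨h1, h2, (h P h1 h2).2 h3⟩
  unfold Spec.decompWeight
  rw [hset]

end Weight

section Root

variable {L : Type} [Field L] [NumberField L] {m : ℕ} [NeZero m] {ζ : L}

/-- `autToPow f ≡ k mod m` iff `f ζ = ζ ^ k`. -/
theorem autToPow_eq_natCast_iff (hζ : IsPrimitiveRoot ζ m) (f : L ≃ₐ[ℚ] L) (k : ℕ) :
    ((hζ.autToPow ℚ f : (ZMod m)ˣ) : ZMod m) = (k : ZMod m) ↔ f ζ = ζ ^ k := by
  have hspec := hζ.autToPow_spec ℚ f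
  have hk : ζ ^ k = ζ ^ ((k : ZMod m).val) := by
    rw [ZMod.val_natCast, hζ.eq_orderOf, pow_mod_orderOf]
  constructor
  · intro h
    rw [← hspec, h, ← hk]
  · intro h
    rw [← hspec, hk] at h
    have := hζ.pow_inj (ZMod.val_lt _) (ZMod.val_lt _) h
    exact ZMod.val_injective m this

/-- `autToPow f = 1` iff `f ζ = ζ`. -/
theorem autToPow_eq_one_iff (hζ : IsPrimitiveRoot ζ m) (f : L ≃ₐ[ℚ] L) :
    hζ.autToPow ℚ f = 1 ↔ f ζ = ζ := by
  have h := autToPow_eq_natCast_iff hζ f 1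
  rw [Nat.cast_one, pow_one] at h
  rw [← h]
  constructor
  · intro h1
    rw [h1]
    rfl
  · intro h1
    exact Units.ext h1

end Root

end Fermat.Agent.Lib.Cheb.H583
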