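import Mathlib.GroupTheory.SpecificGroups.Cyclic
import Mathlib.Algebra.BigOperators.Group.Finset.Basic
import Mathlib.Data.Real.Basic
import Mathlib.Order.Filter.Basic
import Mathlib.Tactic

/-!
# Frobenius density theorem: calculus of "equal up to a bounded function" (helper583)

`BddDiff l f g` : `f - g` is eventually bounded along the filter `l`.
-/

set_option autoImplicit false

open Finset Filter

namespace Fermat.Agent.Lib.Cheb.H583

/-- `f` and `g` differ by a function which is eventually bounded along `l`. -/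
def BddDiff (l : Filter ℝ) (f g : ℝ → ℝ) : Prop :=
  ∃ B : ℝ, ∀ᶠ s in l, |f s - g s| ≤ B

variable {l : Filter ℝ}

theorem BddDiff.refl (l : Filter ℝ) (f : ℝ → ℝ) : BddDiff l f f :=
  ⟨0, Eventually.of_forall fun s => by simp⟩

theorem BddDiff.symm {f g : ℝ → ℝ} (h : BddDiff l f g) : BddDiff l g f := by
  obtain ⟨B, hB⟩ := h
  exact ⟨B, hB.mono fun s hs => by rw [abs_sub_comm]; exact hs⟩

theorem BddDiff.trans {f g k : ℝ → ℝ} (h₁ : BddDiff l f g)
    (h₂ : BddDiff l g k) : BddDiff l f k := by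
  obtain ⟨B₁, hB₁⟩ := h₁
  obtain ⟨B₂, hB₂⟩ := h₂
  refine ⟨B₁ + B₂, (hB₁.and hB₂).mono fun s hs => ?_⟩
  have := abs_sub_le (f s) (g s) (k s)
  linarith [hs.1, hs.2]

theorem BddDiff.add {f g f' g' : ℝ → ℝ} (h₁ : BddDiff l f g)
    (h₂ : BddDiff l f' g') : BddDiff l (fun s => f s + f' s) (fun s => g s + g' s) := by
  obtain ⟨B₁, hB₁⟩ := h₁
  obtain ⟨B₂, hB₂⟩ := h₂
  refine ⟨B₁ + B₂, (hB₁.and hB₂).mono fun s hs => ?_⟩
  have h : f s + f' s - (g s + g' s) = (f s - g s) + (f' s - g' s) := by ring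
  rw [h]
  exact (abs_add_le _ _).trans (add_le_add hs.1 hs.2)

theorem BddDiff.sub {f g f' g' : ℝ → ℝ} (h₁ : BddDiff l f g)
    (h₂ : BddDiff l f' g') : BddDiff l (fun s => f s - f' s) (fun s => g s - g' s) := by
  obtain ⟨B₁, hB₁⟩ := h₁
  obtain ⟨B₂, hB₂⟩ := h₂
  refine ⟨B₁ + B₂, (hB₁.and hB₂).mono fun s hs => ?_⟩
  have h : f s - f' s - (g s - g' s) = (f s - g s) - (f' s - g' s) := by ring
  rw [h]
  exact (abs_sub _ _).trans (add_le_add hs.1 hs.2)

theorem BddDiff.const_mul {f g : ℝ → ℝ} (c : ℝ) (h : BddDiff l f g) :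
    BddDiff l (fun s => c * f s) (fun s => c * g s) := by
  obtain ⟨B, hB⟩ := h
  refine ⟨|c| * B, hB.mono fun s hs => ?_⟩
  have h : c * f s - c * g s = c * (f s - g s) := by ring
  rw [h, abs_mul]
  exact mul_le_mul_of_nonneg_left hs (abs_nonneg c)

theorem BddDiff.finset_sum {ι : Type*} (t : Finset ι) {f g : ι → ℝ → ℝ}
    (h : ∀ i ∈ t, BddDiff l (f i) (g i)) :
    BddDiff l (fun s => ∑ i ∈ t, f i s) (fun s => ∑ i ∈ t, g i s) := by
  classical
  induction t using Finset.induction_on with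
  | empty => exact ⟨0, Eventually.of_forall fun s => by simp⟩
  | insert a t ha ih =>
    have h1 := h a (Finset.mem_insert_self a t)
    have h2 := ih (fun i hi => h i (Finset.mem_insert_of_mem hi))
    have := h1.add h2
    simpa [Finset.sum_insert ha] using this

theorem BddDiff.congr' {f g f' g' : ℝ → ℝ} (h : BddDiff l f g)
    (hf : ∀ᶠ s in l, f s = f' s) (hg : ∀ᶠ s in l, g s = g' s) : BddDiff l f' g' := by
  obtain ⟨B, hB⟩ := h
  exact ⟨B, (hB.and (hf.and hg)).mono fun s hs => by rw [← hs.2.1, ← hs.2.2]; exact hs.1⟩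

theorem BddDiff.congr {f g f' g' : ℝ → ℝ} (h : BddDiff l f g)
    (hf : ∀ s, f s = f' s) (hg : ∀ s, g s = g' s) : BddDiff l f' g' :=
  h.congr' (Eventually.of_forall hf) (Eventually.of_forall hg)

/-- A function which is eventually bounded in absolute value. -/
theorem BddDiff.of_abs_le {f g : ℝ → ℝ} (B : ℝ) (h : ∀ᶠ s in l, |f s - g s| ≤ B) :
    BddDiff l f g := ⟨B, h⟩

theorem bddDiff_zero_iff {f : ℝ → ℝ} :
    BddDiff l f (fun _ => 0) ↔ ∃ C : ℝ, ∀ᶠ s in l, |f s| ≤ C := by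
  simp [BddDiff]

theorem bddDiff_iff_sub {f g : ℝ → ℝ} :
    BddDiff l f g ↔ ∃ C : ℝ, ∀ᶠ s in l, |(fun s => f s - g s) s| ≤ C := Iff.rfl

end Fermat.Agent.Lib.Cheb.H583
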