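import Fermat.Agent.Lib.Cheb.H583.CycAlgBase

/-!
# CHEB Tier 2, piece ALG of CYC (helper583)

The algebraic input of the cyclotomic case of Chebotarev (statement `CycAlgStatement` of the CYC
skeleton of helper221, copied verbatim with its abbreviations unfolded), from the Tier 1
statements (A), (D), (M) as black boxes.

Setting: `L/ℚ` Galois, `ζ ∈ L` a primitive `m`-th root of unity, `g ∈ Gal(L/ℚ)` such that `⟨g⟩`
acts faithfully on `ζ`, `a = autToPow g ∈ (ℤ/m)ˣ`, `M = L^⟨g⟩`, `L₀ = L^⊥`.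

* (ORD) `|⟨a⟩| = ord g`;
* (SUPP) `primeCount M p ≠ 0 ⇒ p mod m ∈ ⟨a⟩`;
* (SPLIT) `primeCount L₀ p = ord g * primeCount M p` if `p ≡ 1 (m)`, and `= 0` otherwise;
* (NT) `χ(a) ≠ 1 ⇒` some ideal `I` of `𝓞 M` has `χ(N I) ∉ {0, 1}`;
* (FIN) `primeCount M p ≠ 0`, `p ≡ a (m) ⇒ g` is an arithmetic Frobenius at some `P ∣ p` with
  trivial inertia.
-/

set_option autoImplicit false
set_option linter.unusedSectionVars false

open NumberField

namespace Fermat.Agent.Lib.Cheb.H583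

section Faithful

variable {L : Type} [Field L] [NumberField L] {m : ℕ} [NeZero m] {ζ : L}

/-- An element of `⟨g⟩` fixing `ζ` is trivial, if `⟨g⟩` acts faithfully on `ζ`. -/
theorem eq_one_of_mem_zpowers_of_fix {g : L ≃ₐ[ℚ] L}
    (hg : ∀ k : ℕ, (g ^ k) ζ = ζ → g ^ k = 1) {h : L ≃ₐ[ℚ] L} (hh : h ∈ Subgroup.zpowers g)
    (hfix : h ζ = ζ) : h = 1 := by
  rw [← mem_powers_iff_mem_zpowers] at hh
  obtain ⟨k, rfl⟩ := hh
  exact hg k hfix

/-- (ORD) -/
theorem card_zpowers_autToPow (hζ : IsPrimitiveRoot ζ m) (g : L ≃ₐ[ℚ] L)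
    (hg : ∀ k : ℕ, (g ^ k) ζ = ζ → g ^ k = 1) :
    Nat.card (Subgroup.zpowers (hζ.autToPow ℚ g)) = orderOf g := by
  rw [Nat.card_zpowers]
  apply orderOf_eq_orderOf_iff.2
  intro n
  rw [← map_pow, autToPow_eq_one_iff]
  constructor
  · exact hg n
  · intro h
    rw [h]
    rfl

/-- The image of `⟨g⟩` under `autToPow` is `⟨autToPow g⟩`. -/
theorem autToPow_mem_zpowers (hζ : IsPrimitiveRoot ζ m) {g τ : L ≃ₐ[ℚ] L}
    (hτ : τ ∈ Subgroup.zpowers g) :
    hζ.autToPow ℚ τ ∈ Subgroup.zpowers (hζ.autToPow ℚ g) := by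
  obtain ⟨k, rfl⟩ := Subgroup.mem_zpowers_iff.1 hτ
  rw [map_zpow]
  exact Subgroup.zpow_mem_zpowers _ k

end Faithful

/-- The statement of piece ALG (`CycAlgStatement` of the CYC skeleton, abbreviations unfolded). -/
def CycAlgStatement583 : Prop :=
  Spec.CountStatement → Spec.FrobStatement → Spec.FrobFiniteStatement →
  ∀ (L : Type) [Field L] [NumberField L] [IsGalois ℚ L] (m : ℕ) [NeZero m] (ζ : L)
    (hζ : IsPrimitiveRoot ζ m) (g : L ≃ₐ[ℚ] L), (∀ k : ℕ, (g ^ k) ζ = ζ → g ^ k = 1) →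
    Nat.card (Subgroup.zpowers (hζ.autToPow ℚ g)) = orderOf g ∧
    ∃ B : Finset ℕ,
      -- (SUPP)
      (∀ p : ℕ, p.Prime → p ∉ B →
        Spec.primeCount (IntermediateField.fixedField (Subgroup.zpowers g)) p ≠ 0 →
        ∃ u ∈ Subgroup.zpowers (hζ.autToPow ℚ g), ((u : (ZMod m)ˣ) : ZMod m) = (p : ZMod m)) ∧
      -- (SPLIT)
      (∀ p : ℕ, p.Prime → p ∉ B →
        Spec.primeCount (IntermediateField.fixedField (⊥ : Subgroup (L ≃ₐ[ℚ] L))) p =
          if (p : ZMod m) = 1 then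
            orderOf g * Spec.primeCount (IntermediateField.fixedField (Subgroup.zpowers g)) p
          else 0) ∧
      -- (NT)
      (∀ χ : DirichletCharacter ℂ m, χ ((hζ.autToPow ℚ g : (ZMod m)ˣ) : ZMod m) ≠ 1 →
        ∃ I : Ideal (𝓞 (IntermediateField.fixedField (Subgroup.zpowers g))),
          χ (Ideal.absNorm I : ZMod m) ≠ 0 ∧ χ (Ideal.absNorm I : ZMod m) ≠ 1) ∧
      -- (FIN)
      (∀ p : ℕ, p.Prime → p ∉ B →
        Spec.primeCount (IntermediateField.fixedField (Subgroup.zpowers g)) p ≠ 0 →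
        (p : ZMod m) = ((hζ.autToPow ℚ g : (ZMod m)ˣ) : ZMod m) →
        ∃ P : Ideal (𝓞 L), P.IsPrime ∧ (p : 𝓞 L) ∈ P ∧ Spec.InertiaTrivial L P ∧
          IsArithFrobAt ℤ g P)

/-- Piece ALG of CYC. -/
theorem cycAlg : CycAlgStatement583 := by
  intro hA hD hM L _ _ _ m _ ζ hζ g hg
  refine ⟨card_zpowers_autToPow hζ g hg, ?_⟩
  obtain ⟨BD, hBD⟩ := hD L
  obtain ⟨BA, hBA⟩ := hA L (Subgroup.zpowers g)
  obtain ⟨BA0, hBA0⟩ := hA L ⊥
  have hm0 : m ≠ 0 := NeZero.ne m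
  set B : Finset ℕ := BD ∪ BA ∪ BA0 ∪ m.divisors with hB
  have hgood : ∀ p : ℕ, p ∉ B → p ∉ BD ∧ p ∉ BA ∧ p ∉ BA0 ∧ ¬ p ∣ m := by
    intro p hp
    simp only [hB, Finset.mem_union, not_or, Nat.mem_divisors] at hp
    exact ⟨hp.1.1.1, hp.1.1.2, hp.1.2, fun h => hp.2 ⟨h, hm0⟩⟩
  -- Frobenius data at the good primes
  have hfrob : ∀ p : ℕ, p.Prime → p ∉ B → ∀ P : Ideal (𝓞 L), P.IsPrime → (p : 𝓞 L) ∈ P →
      Spec.InertiaTrivial L P ∧ ∃ τ : L ≃ₐ[ℚ] L, IsArithFrobAt ℤ τ P ∧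
        Spec.decomp L P = Subgroup.zpowers τ ∧ τ ζ = ζ ^ p := by
    intro p hp hpB P hP hpP
    obtain ⟨h1, -, -, h4⟩ := hgood p hpB
    obtain ⟨hin, τ, hτ, hdec⟩ := hBD p hp h1 P hP hpP
    exact ⟨hin, τ, hτ, hdec,
      frob_apply_root hp h4 hP hpP hτ (Nat.pos_of_ne_zero hm0) hζ.pow_eq_one⟩
  have hcardpos : 0 < Nat.card (Subgroup.zpowers g) := Nat.card_pos
  -- a prime with decomposition group in `⟨g⟩`, from a prime of norm `p` of the fixed field
  have hex : ∀ p : ℕ, p.Prime → p ∉ B →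
      Spec.primeCount (IntermediateField.fixedField (Subgroup.zpowers g)) p ≠ 0 →
      ∃ P : Ideal (𝓞 L), P.IsPrime ∧ (p : 𝓞 L) ∈ P ∧
        Spec.decomp L P ≤ Subgroup.zpowers g := by
    intro p hp hpB hne
    obtain ⟨-, h2, -, -⟩ := hgood p hpB
    have h := hBA p hp h2
    apply (decompWeight_ne_zero_iff (Subgroup.zpowers g) hp.ne_zero).1
    rw [← h]
    exact Nat.mul_ne_zero hne hcardpos.ne'
  refine ⟨B, ?_, ?_, ?_, ?_⟩
  · -- (SUPP)
    intro p hp hpB hne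
    obtain ⟨P, hP, hpP, hle⟩ := hex p hp hpB hne
    obtain ⟨-, τ, -, hdec, hτζ⟩ := hfrob p hp hpB P hP hpP
    have hτg : τ ∈ Subgroup.zpowers g := hle (hdec ▸ Subgroup.mem_zpowers τ)
    exact ⟨hζ.autToPow ℚ τ, autToPow_mem_zpowers hζ hτg,
      (autToPow_eq_natCast_iff hζ τ p).2 hτζ⟩
  · -- (SPLIT)
    intro p hp hpB
    obtain ⟨-, h2, h3, -⟩ := hgood p hpB
    have h0 := hBA0 p hp h3
    have h1 := hBA p hp h2
    rw [Subgroup.card_bot, mul_one] at h0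
    rw [Nat.card_zpowers] at h1
    split_ifs with h
    · have hcongr : Spec.decompWeight L (Subgroup.zpowers g) p = Spec.decompWeight L ⊥ p := by
        refine decompWeight_congr _ _ p fun P hP hpP => ⟨fun hle => ?_, fun hle => hle.trans bot_le⟩
        obtain ⟨-, τ, -, hdec, hτζ⟩ := hfrob p hp hpB P hP hpP
        have hτg : τ ∈ Subgroup.zpowers g := hle (hdec ▸ Subgroup.mem_zpowers τ)
        have hfix : τ ζ = ζ := by
          have h5 := (autToPow_eq_natCast_iff hζ τ p).2 hτζ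
          rw [h] at h5
          have h6 := (autToPow_eq_natCast_iff hζ τ 1).1 (by rw [h5, Nat.cast_one])
          rwa [pow_one] at h6
        have hτ1 : τ = 1 := eq_one_of_mem_zpowers_of_fix hg hτg hfix
        rw [hdec, hτ1, Subgroup.zpowers_one_eq_bot]
      rw [h0, ← hcongr, ← h1, mul_comm]
    · have hzero : Spec.decompWeight L ⊥ p = 0 := by
        by_contra hne
        obtain ⟨P, hP, hpP, hle⟩ := (decompWeight_ne_zero_iff ⊥ hp.ne_zero).1 hne
        obtain ⟨-, τ, -, hdec, hτζ⟩ := hfrob p hp hpB P hP hpP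
        have hτ1 : τ = 1 := by
          have : τ ∈ (⊥ : Subgroup (L ≃ₐ[ℚ] L)) := hle (hdec ▸ Subgroup.mem_zpowers τ)
          exact Subgroup.mem_bot.1 this
        rw [hτ1] at hτζ
        have h5 := (autToPow_eq_natCast_iff hζ 1 p).2 hτζ
        rw [map_one] at h5
        exact h (by rw [← h5]; rfl)
      rw [h0, hzero]
  · -- (NT)
    intro χ hχ
    obtain ⟨p, P, τ₂, hp, hpB, hP, hpP, hin, hτ₂, hzp⟩ := hM L g B
    obtain ⟨-, τ, hτ, hdec, hτζ⟩ := hfrob p hp hpB P hP hpP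
    have hττ : τ = τ₂ := frob_unique hin hτ hτ₂
    rw [← hττ] at hzp
    obtain ⟨-, h2, -, -⟩ := hgood p hpB
    have h1 := hBA p hp h2
    have hw : Spec.decompWeight L (Subgroup.zpowers g) p ≠ 0 :=
      (decompWeight_ne_zero_iff (Subgroup.zpowers g) hp.ne_zero).2
        ⟨P, hP, hpP, by rw [hdec, hzp]⟩
    rw [← h1] at hw
    have hpc : Spec.primeCount (IntermediateField.fixedField (Subgroup.zpowers g)) p ≠ 0 :=
      fun h => hw (by rw [h, zero_mul])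
    unfold Spec.primeCount at hpc
    obtain ⟨⟨𝔮, -, hN⟩⟩ := (Nat.card_ne_zero.1 hpc).1
    have hpu : (p : ZMod m) = ((hζ.autToPow ℚ τ : (ZMod m)ˣ) : ZMod m) :=
      ((autToPow_eq_natCast_iff hζ τ p).2 hτζ).symm
    refine ⟨𝔮, ?_, ?_⟩
    · rw [hN, hpu]
      exact ((hζ.autToPow ℚ τ).isUnit.map χ).ne_zero
    · rw [hN, hpu]
      intro h1
      apply hχ
      have hgτ : g ∈ Subgroup.zpowers τ := by
        rw [hzp]
        exact Subgroup.mem_zpowers g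
      obtain ⟨k, hk⟩ := Subgroup.mem_zpowers_iff.1 hgτ
      have hu : χ.toUnitHom (hζ.autToPow ℚ τ) = 1 := by
        apply Units.ext
        rw [MulChar.coe_toUnitHom, h1]
        rfl
      have hu' : χ.toUnitHom (hζ.autToPow ℚ g) = 1 := by
        rw [← hk, map_zpow, map_zpow, hu, one_zpow]
      rw [← MulChar.coe_toUnitHom, hu']
      rfl
  · -- (FIN)
    intro p hp hpB hne hpa
    obtain ⟨P, hP, hpP, hle⟩ := hex p hp hpB hne
    obtain ⟨hin, τ, hτ, hdec, hτζ⟩ := hfrob p hp hpB P hP hpP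
    have hτg : τ ∈ Subgroup.zpowers g := hle (hdec ▸ Subgroup.mem_zpowers τ)
    have hgζ : g ζ = ζ ^ p := (autToPow_eq_natCast_iff hζ g p).1 hpa.symm
    have hfix : (τ⁻¹ * g) ζ = ζ := by
      rw [AlgEquiv.mul_apply, hgζ, ← hτζ]
      exact τ.symm_apply_apply ζ
    have h1 : τ⁻¹ * g = 1 :=
      eq_one_of_mem_zpowers_of_fix hg
        (mul_mem (inv_mem hτg) (Subgroup.mem_zpowers g)) hfix
    have hτeq : τ = g := inv_mul_eq_one.1 h1
    exact ⟨P, hP, hpP, hin, hτeq ▸ hτ⟩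

end Fermat.Agent.Lib.Cheb.H583
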